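/-
Programme S12 (one-step route), brick AN-BRIDGE (helper51), general form.

`W` a Weierstrass curve over `ℚ` with `Δ ≠ 0`, `t` a point of odd prime order `p = 2 m + 1` over
`ℚbar`, `T₁, T₂, T₃` the three points of order `2`.  In the translation invariant coordinate
`x12 = 12 x + b₂` put `R i = ∏_{k=1}^m (x12 (k • t) - x12 (T i))`.  If the `2`-torsion is
"Frey-shaped" (`x12 T₁ - x12 T₂ = -(s A)`, `x12 T₁ - x12 T₃ = s B` for integers `A, B ≠ 0`) and
`R₁⁴ = 16^(p-1) R₂⁴ = R₃⁴`, we get a contradiction (uniformisation `Unif18.exists_tau`, the isogeny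
identities `EF86.pair_identity`, and the elementary inequality of `OneStep51`).
-/
import Fermat.Agent.MAZ.Unif18.BridgeQbar
import Fermat.Agent.MAZ.OneStep51.Lattice

set_option autoImplicit false

open scoped PeriodPair
open UpperHalfPlane

namespace Fermat.Agent.S12P.AnBridge51

open PeriodPair WeierstrassCurve WeierstrassCurve.Affine
open Fermat.Agent.X0 Fermat.Agent.X0.LatticeEis
open Fermat.Agent.S05.Transport
open Fermat.Agent.MAZ.Unif18
open Fermat.Agent.MAZ.EF86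

/-- A nonzero `2`-torsion point of the lattice curve comes from a half-period. -/
theorem exists_half_period (L : PeriodPair) (S : (curve L).toAffine.Point) (hS : S ≠ 0)
    (h2 : 2 • S = 0) : ∃ z : ℂ, z ∉ L.lattice ∧ 2 * z ∈ L.lattice ∧ toPoint L z = S := by
  obtain ⟨z, hz⟩ := toPoint_surjective L S
  refine ⟨z, ?_, ?_, hz⟩
  · intro hm
    exact hS (by rw [← hz, toPoint_of_mem L hm])
  · rw [← toPoint_eq_zero_iff (L := L)]
    have h1 : toPoint L (2 * z) = 2 • toPoint L z := by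
      have := map_nsmul (toPointHom L) 2 z
      simpa [nsmul_eq_mul] using this
    rw [h1, hz, h2]

/-- Distinct points have distinct parameters modulo the lattice. -/
theorem sub_notMem_of_toPoint_ne (L : PeriodPair) {z w : ℂ} (h : toPoint L z ≠ toPoint L w) :
    z - w ∉ L.lattice := by
  intro hm
  apply h
  have e : z = w + (z - w) := by ring
  rw [e, toPoint_add_mem L w hm]

variable (W : WeierstrassCurve ℚ)

/-- **AN-BRIDGE, general form.** -/
theorem false_of_K (hΔ : W.Δ ≠ 0) {p m : ℕ} (hp : p.Prime) (hpm : p = 2 * m + 1) (hm : 1 ≤ m)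
    (t : (W⁄Kbar).Point) (ht : addOrderOf t = p)
    (T₁ T₂ T₃ : (W⁄Kbar).Point) (h₁0 : T₁ ≠ 0) (h₂0 : T₂ ≠ 0) (h₃0 : T₃ ≠ 0)
    (h₁2 : 2 • T₁ = 0) (h₂2 : 2 • T₂ = 0) (h₃2 : 2 • T₃ = 0)
    (h12 : T₁ ≠ T₂) (h13 : T₁ ≠ T₃) (h23 : T₂ ≠ T₃)
    {A B : ℤ} (hA : A ≠ 0) (hB : B ≠ 0) {s : Kbar} (hs : s ≠ 0)
    (hx12 : x12 (W.baseChange Kbar) T₁ - x12 (W.baseChange Kbar) T₂ = -(s * A))
    (hx13 : x12 (W.baseChange Kbar) T₁ - x12 (W.baseChange Kbar) T₃ = s * B)
    (hK₁ : (∏ k ∈ Finset.Ico 1 (m + 1),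
        (x12 (W.baseChange Kbar) (k • t) - x12 (W.baseChange Kbar) T₁)) ^ 4 =
      16 ^ (p - 1) * (∏ k ∈ Finset.Ico 1 (m + 1),
        (x12 (W.baseChange Kbar) (k • t) - x12 (W.baseChange Kbar) T₂)) ^ 4)
    (hK₃ : (∏ k ∈ Finset.Ico 1 (m + 1),
        (x12 (W.baseChange Kbar) (k • t) - x12 (W.baseChange Kbar) T₃)) ^ 4 =
      16 ^ (p - 1) * (∏ k ∈ Finset.Ico 1 (m + 1),
        (x12 (W.baseChange Kbar) (k • t) - x12 (W.baseChange Kbar) T₂)) ^ 4) : False := by
  have := isElliptic_baseChange_C W hΔ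
  have hQC : addOrderOf (pointToC W t) = p := by rw [addOrderOf_pointToC, ht]
  obtain ⟨τ, u, hu, C, h, -, hpt⟩ := exists_tau (W.baseChange ℂ) hp (pointToC W t) hQC
  set L := scalePair u hu (pairOfUHP τ) with hL
  have hp0 : (p : ℂ) ≠ 0 := Nat.cast_ne_zero.mpr hp.ne_zero
  set L' := scalePair (u / p) (div_ne_zero hu (Nat.cast_ne_zero.mpr hp.pos.ne'))
    (pairOfUHP (natMulUHP p hp.pos τ)) with hL'
  have hω₂ : L'.ω₂ = u / p := by
    simp only [hL', scalePair_ω₂, pairOfUHP_ω₂, mul_one]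
  have hb₁ : L'.ω₁ = L.ω₁ := by
    simp only [hL', hL, scalePair_ω₁, pairOfUHP_ω₁, coe_natMulUHP]
    field_simp
  have hb₂ : L.ω₂ = (p : ℂ) * L'.ω₂ := by
    rw [hω₂]
    simp only [hL, scalePair_ω₂, pairOfUHP_ω₂, mul_one]
    field_simp
  have hcyc := isCyclicSup_of_basis L L' hp.pos hb₁ hb₂
  rw [hω₂] at hcyc
  set t₀ : ℂ := u / p with ht₀
  have hQ' : addOrderOf (pointEquiv h (toPoint L t₀)) = p := by rw [hpt, hQC]
  have hcu : (C.u : ℂ) ≠ 0 := C.u.ne_zero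
  set c : ℂ := 12 * (C.u : ℂ) ^ 2 with hc
  have hc0 : c ≠ 0 := mul_ne_zero (by norm_num) (pow_ne_zero 2 hcu)
  -- the half periods
  have key : ∀ T : (W⁄Kbar).Point, T ≠ 0 → 2 • T = 0 →
      ∃ z : ℂ, z ∉ L.lattice ∧ 2 * z ∈ L.lattice ∧ pointEquiv h (toPoint L z) = pointToC W T ∧
        iotaAlg (x12 (W.baseChange Kbar) T) = c * ℘[L] z := by
    intro T hT0 hT2
    have hS0 : (pointEquiv h).symm (pointToC W T) ≠ 0 := by
      intro h0
      have : pointToC W T = 0 := by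
        have := congrArg (pointEquiv h) h0
        simpa using this
      exact hT0 ((pointToC_injective W) (by rw [this, map_zero]))
    have hS2 : 2 • (pointEquiv h).symm (pointToC W T) = 0 := by
      rw [← map_nsmul, ← map_nsmul, hT2, map_zero, map_zero]
    obtain ⟨z, hz, h2z, hzS⟩ := exists_half_period L _ hS0 hS2
    have hzT : pointEquiv h (toPoint L z) = pointToC W T := by
      rw [hzS]; exact AddEquiv.apply_symm_apply _ _
    refine ⟨z, hz, h2z, hzT, ?_⟩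
    rw [← x12_pointToC, ← hzT, x12_pointEquiv_toPoint h hz]
  obtain ⟨z₁, hz₁, h2z₁, hzT₁, hx₁⟩ := key T₁ h₁0 h₁2
  obtain ⟨z₂, hz₂, h2z₂, hzT₂, hx₂⟩ := key T₂ h₂0 h₂2
  obtain ⟨z₃, hz₃, h2z₃, hzT₃, hx₃⟩ := key T₃ h₃0 h₃2
  have hne : ∀ {T T' : (W⁄Kbar).Point} {z z' : ℂ}, T ≠ T' →
      pointEquiv h (toPoint L z) = pointToC W T → pointEquiv h (toPoint L z') = pointToC W T' →
      z - z' ∉ L.lattice := by
    intro T T' z z' hTT hz hz'
    apply sub_notMem_of_toPoint_ne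
    intro heq
    apply hTT
    apply pointToC_injective W
    rw [← hz, ← hz', heq]
  have hT : HalfTriple L z₁ z₂ z₃ :=
    { notMem₁ := hz₁, notMem₂ := hz₂, notMem₃ := hz₃
      two₁ := h2z₁, two₂ := h2z₂, two₃ := h2z₃
      sub₁₂ := hne h12 hzT₁ hzT₂
      sub₁₃ := hne h13 hzT₁ hzT₃
      sub₂₃ := hne h23 hzT₂ hzT₃ }
  -- the multiples of `t`
  have hmul : ∀ k ∈ Finset.Ico 1 (m + 1),
      iotaAlg (x12 (W.baseChange Kbar) (k • t)) = c * ℘[L] ((k : ℂ) * t₀) := by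
    intro k hk
    rw [Finset.mem_Ico] at hk
    have hpk : ¬ p ∣ k := Nat.not_dvd_of_pos_of_lt (by omega) (by omega)
    rw [← x12_pointToC, map_nsmul, ← hpt, x12_nsmul h hQ' hpk]
  -- the kernel products
  have hPT : ∀ (T : (W⁄Kbar).Point) (z : ℂ), iotaAlg (x12 (W.baseChange Kbar) T) = c * ℘[L] z →
      iotaAlg (∏ k ∈ Finset.Ico 1 (m + 1),
        (x12 (W.baseChange Kbar) (k • t) - x12 (W.baseChange Kbar) T)) =
      c ^ m * IsCyclicSup.PT L t₀ m z := by
    intro T z hTz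
    rw [map_prod, IsCyclicSup.PT]
    have : ∀ k ∈ Finset.Ico 1 (m + 1),
        iotaAlg (x12 (W.baseChange Kbar) (k • t) - x12 (W.baseChange Kbar) T) =
          c * (xk L t₀ k - ℘[L] z) := by
      intro k hk
      rw [map_sub, hmul k hk, hTz, xk]
      ring
    rw [Finset.prod_congr rfl this, Finset.prod_mul_distrib, Finset.prod_const]
    congr 1
    simp
  have hP₁ := hPT T₁ z₁ hx₁
  have hP₂ := hPT T₂ z₂ hx₂
  have hP₃ := hPT T₃ z₃ hx₃
  have hcm : (c ^ m) ^ 4 ≠ 0 := pow_ne_zero 4 (pow_ne_zero m hc0)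
  have hK₁' : IsCyclicSup.PT L t₀ m z₁ ^ 4 = 16 ^ (p - 1) * IsCyclicSup.PT L t₀ m z₂ ^ 4 := by
    have := congrArg iotaAlg hK₁
    rw [map_pow, map_mul, map_pow, map_pow, hP₁, hP₂, map_ofNat] at this
    apply mul_left_cancel₀ hcm
    linear_combination this
  have hK₃' : IsCyclicSup.PT L t₀ m z₃ ^ 4 = 16 ^ (p - 1) * IsCyclicSup.PT L t₀ m z₂ ^ 4 := by
    have := congrArg iotaAlg hK₃
    rw [map_pow, map_mul, map_pow, map_pow, hP₃, hP₂, map_ofNat] at this
    apply mul_left_cancel₀ hcm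
    linear_combination this
  -- the Frey shape
  have hιs : iotaAlg s ≠ 0 := (map_ne_zero_iff iotaAlg iotaAlg.injective).mpr hs
  have hs' : iotaAlg s / c ≠ 0 := div_ne_zero hιs hc0
  have h12' : ℘[L] z₁ - ℘[L] z₂ = -(iotaAlg s / c * A) := by
    have := congrArg iotaAlg hx12
    rw [map_sub, hx₁, hx₂, map_neg, map_mul, map_intCast] at this
    field_simp
    linear_combination this
  have h13' : ℘[L] z₁ - ℘[L] z₃ = iotaAlg s / c * B := by
    have := congrArg iotaAlg hx13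
    rw [map_sub, hx₁, hx₃, map_mul, map_intCast] at this
    field_simp
    linear_combination this
  exact Fermat.Agent.MAZ.OneStep51.Lattice.false_of_isCyclicSup hcyc hpm hm hT hA hB hs' h12' h13'
    hK₁' hK₃'

end Fermat.Agent.S12P.AnBridge51
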